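import Mathlib
import Fermat.Prelude.Def_CuspForm_IntegralLattice
import Fermat.Prelude.Def_FormalHecke_Eigensystem
import Fermat.Prelude.Def_ModularForm_EisensteinChiNegThree
import Fermat.Prelude.Def_FLTPrelim_Modularity
import Fermat.Prelude.Def_CuspForm_HeckeAlgebra
import Fermat.Prelude.Def_CuspForm_IntegralStructure
import Fermat.Prelude.Thm_CuspForm_intLattice_fg
import Fermat.Prelude.Thm_CuspForm_mem_intLattice_of_mem_heckeAlgebra
import Fermat.Prelude.Thm_ModularFormClass_qCoeff_heckeT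
import Fermat.Prelude.Thm_ModularFormClass_qCoeff_heckeU
import Fermat.Prelude.Thm_CongruenceSubgroup_one_mem_strictPeriods_Gamma0

/-!
# Basic q-coefficient API for weight 2 cusp forms on `Γ₀(N)`
-/

set_option autoImplicit false

namespace Fermat.Agent.S49

open CuspForm ModularFormClass CongruenceSubgroup UpperHalfPlane

variable {N : ℕ}

theorem one_mem_sp (N : ℕ) :
    (1 : ℝ) ∈ (Subgroup.map (Matrix.SpecialLinearGroup.mapGL ℝ) (Gamma0 N)).strictPeriods :=
  CongruenceSubgroup.one_mem_strictPeriods_Gamma0 N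

theorem qCoeff_add' (f g : CuspForm (Gamma0 N) 2) (n : ℕ) :
    qCoeff ⇑(f + g) n = qCoeff ⇑f n + qCoeff ⇑g n := by
  simp only [qCoeff, FunLike.coe_add]
  rw [ModularForm.qExpansion_add one_pos (one_mem_sp N) f g, map_add]

theorem qCoeff_smul' (c : ℂ) (f : CuspForm (Gamma0 N) 2) (n : ℕ) :
    qCoeff ⇑(c • f) n = c * qCoeff ⇑f n := by
  have h1 : ⇑(c • f) = c • ⇑f := by
    ext z
    simp
  simp only [qCoeff, h1]
  rw [ModularForm.qExpansion_smul one_pos (one_mem_sp N) c f]
  simp

/-- The `n`-th q-coefficient as a linear functional. -/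
noncomputable def qcLin (N : ℕ) (n : ℕ) : CuspForm (Gamma0 N) 2 →ₗ[ℂ] ℂ where
  toFun f := qCoeff ⇑f n
  map_add' f g := qCoeff_add' f g n
  map_smul' c f := by
    simp only [RingHom.id_apply, smul_eq_mul]
    exact qCoeff_smul' c f n

@[simp] theorem qcLin_apply (n : ℕ) (f : CuspForm (Gamma0 N) 2) : qcLin N n f = qCoeff ⇑f n := rfl

theorem qCoeff_zero_idx (f : CuspForm (Gamma0 N) 2) : qCoeff ⇑f 0 = 0 := by
  simp only [qCoeff]
  exact CuspFormClass.qExpansion_coeff_zero f one_pos (one_mem_sp N)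

theorem eq_zero_of_qCoeff (f : CuspForm (Gamma0 N) 2) (h : ∀ n, qCoeff ⇑f n = 0) : f = 0 := by
  have hmf : (ModularFormClass.modularForm f : ModularForm (Gamma0 N) 2) = 0 := by
    rw [← ModularForm.qExpansion_eq_zero_iff one_pos (one_mem_sp N)]
    ext n
    simpa [qCoeff] using h n
  have hcoe : (⇑f : ℍ → ℂ) = 0 := by
    have := congrArg (fun F : ModularForm (Gamma0 N) 2 ↦ (⇑F : ℍ → ℂ)) hmf
    simpa using this
  exact DFunLike.coe_injective (hcoe.trans (FunLike.coe_zero).symm)

theorem qCoeff_T {p : ℕ} (hp : p.Prime) (hpN : ¬ p ∣ N) (f : CuspForm (Gamma0 N) 2) (n : ℕ) :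
    qCoeff ⇑(heckeTLin 2 hp hpN f) n =
      qCoeff ⇑f (n * p) + if p ∣ n then (p : ℂ) * qCoeff ⇑f (n / p) else 0 := by
  rw [coe_heckeTLin_apply, ModularFormClass.qCoeff_heckeT f (one_mem_sp N) hp.ne_zero n,
    ModularForm.coeffHeckeT_apply]
  norm_num

theorem qCoeff_U [NeZero N] {p : ℕ} (hp : p.Prime) (hpN : p ∣ N) (f : CuspForm (Gamma0 N) 2)
    (n : ℕ) :
    qCoeff ⇑(heckeULin 2 hpN f) n = qCoeff ⇑f (n * p) := by
  rw [coe_heckeULin_apply, ModularFormClass.qCoeff_heckeU f (one_mem_sp N) hp.ne_zero n,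
    ModularForm.coeffHeckeU_apply]

/-- Membership in the integral lattice. -/
theorem mem_intLattice_iff' (f : CuspForm (Gamma0 N) 2) :
    f ∈ CuspForm.intLattice N 2 ↔ ∀ n : ℕ, ∃ m : ℤ, qCoeff ⇑f n = (m : ℂ) := by
  constructor
  · intro hf
    unfold CuspForm.intLattice at hf
    induction hf using Submodule.span_induction with
    | mem x hx => exact hx
    | zero =>
      intro n
      exact ⟨0, by simpa using (qcLin N n).map_zero⟩
    | add x y _ _ hx hy =>
      intro n
      obtain ⟨a, ha⟩ := hx n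
      obtain ⟨b, hb⟩ := hy n
      exact ⟨a + b, by rw [qCoeff_add', ha, hb]; push_cast; ring⟩
    | smul c x _ hx =>
      intro n
      obtain ⟨a, ha⟩ := hx n
      refine ⟨c * a, ?_⟩
      have h1 : c • x = (c : ℂ) • x := by
        ext z
        simp
      rw [h1, qCoeff_smul', ha]
      push_cast
      ring
  · intro hf
    exact Submodule.subset_span hf

theorem qIntegralSet_subset (N : ℕ) :
    CuspForm.qIntegralSet N ⊆ (CuspForm.intLattice N 2 : Set (CuspForm (Gamma0 N) 2)) := by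
  intro f hf
  rw [SetLike.mem_coe, mem_intLattice_iff']
  intro n
  obtain ⟨m, hm⟩ := Subring.mem_bot.mp (hf n)
  exact ⟨m, hm.symm⟩

theorem span_intLattice_eq_top (h : CuspForm.HasIntegralBasis N) :
    Submodule.span ℂ (CuspForm.intLattice N 2 : Set (CuspForm (Gamma0 N) 2)) = ⊤ := by
  rw [eq_top_iff]
  unfold CuspForm.HasIntegralBasis at h
  rw [← h]
  exact Submodule.span_mono (qIntegralSet_subset N)

theorem finiteDimensional_of_hasIntegralBasis [NeZero N] (h : CuspForm.HasIntegralBasis N) :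
    FiniteDimensional ℂ (CuspForm (Gamma0 N) 2) := by
  obtain ⟨s, hs⟩ := CuspForm.intLattice_fg N 2
  have key : Submodule.span ℂ (s : Set (CuspForm (Gamma0 N) 2)) = ⊤ := by
    rw [eq_top_iff, ← span_intLattice_eq_top h]
    refine (Submodule.span_le (R := ℂ)).mpr ?_
    intro x hx
    rw [SetLike.mem_coe, ← hs] at hx
    have : (Submodule.span ℤ (s : Set (CuspForm (Gamma0 N) 2)) :
        Set (CuspForm (Gamma0 N) 2)) ⊆
        (Submodule.span ℂ (s : Set (CuspForm (Gamma0 N) 2))) :=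
      Submodule.span_subset_span ℤ ℂ _
    exact this hx
  exact Module.Finite.of_fg_top ⟨s, key⟩

end Fermat.Agent.S49
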