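import Mathlib

/-!
# Abstract linear algebra / commutative algebra behind the Deligne–Serre lifting lemma
-/

set_option autoImplicit false

namespace Fermat.Agent.S49

open Module

section LinAlg

variable {K : Type*} [Field K] [IsAlgClosed K] {V : Type*} [AddCommGroup V] [Module K V]
  [FiniteDimensional K V]
variable {R : Type*} [CommRing R]

/-- A commuting family of operators has a common eigenvector in any nonzero stable subspace. -/
theorem exists_common_eigenvector (ρ : R →+* Module.End K V) (W₀ : Submodule K V) (hW₀ : W₀ ≠ ⊥)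
    (hst : ∀ r, ∀ x ∈ W₀, ρ r x ∈ W₀) :
    ∃ v ∈ W₀, v ≠ 0 ∧ ∀ r, ∃ μ : K, ρ r v = μ • v := by
  classical
  obtain ⟨W, hW⟩ := exists_minimal_of_wellFoundedLT
    (fun W : Submodule K V => W ≠ ⊥ ∧ (∀ r, ∀ x ∈ W, ρ r x ∈ W) ∧ W ≤ W₀) ⟨W₀, hW₀, hst, le_rfl⟩
  obtain ⟨⟨hWne, hWst, hWle⟩, hmin⟩ := hW
  have key : ∀ r, ∃ μ : K, ∀ x ∈ W, ρ r x = μ • x := by
    intro r
    haveI : Nontrivial W := Submodule.nontrivial_iff_ne_bot.mpr hWne
    obtain ⟨μ, hμ⟩ := Module.End.exists_eigenvalue ((ρ r).restrict (hWst r))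
    obtain ⟨w, hw⟩ := hμ.exists_hasEigenvector
    refine ⟨μ, ?_⟩
    have hw_eq : ρ r (w : V) = μ • (w : V) := by
      have := hw.apply_eq_smul
      have h2 := congrArg (Subtype.val) this
      simpa using h2
    set W' : Submodule K V := W ⊓ LinearMap.ker (ρ r - μ • (1 : Module.End K V)) with hW'
    have hmemW' : ∀ x, x ∈ W' ↔ x ∈ W ∧ ρ r x = μ • x := by
      intro x
      simp only [hW', Submodule.mem_inf, LinearMap.mem_ker, LinearMap.sub_apply,
        LinearMap.smul_apply, Module.End.one_apply, sub_eq_zero]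
    have hP : W' ≠ ⊥ ∧ (∀ s, ∀ x ∈ W', ρ s x ∈ W') ∧ W' ≤ W₀ := by
      refine ⟨?_, ?_, inf_le_left.trans hWle⟩
      · intro h
        have hw1 : (w : V) ∈ W' := (hmemW' _).2 ⟨w.2, hw_eq⟩
        rw [h, Submodule.mem_bot] at hw1
        exact hw.2 (Subtype.ext hw1)
      · intro s x hx
        rw [hmemW'] at hx ⊢
        refine ⟨hWst s x hx.1, ?_⟩
        have hcomm : ρ r (ρ s x) = ρ s (ρ r x) := by
          rw [← Module.End.mul_apply, ← Module.End.mul_apply, ← map_mul, ← map_mul, mul_comm]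
        rw [hcomm, hx.2, map_smul]
    have hle : W ≤ W' := hmin hP inf_le_left
    intro x hx
    exact ((hmemW' x).1 (hle hx)).2
  obtain ⟨v, hv, hv0⟩ := Submodule.exists_mem_ne_zero_of_ne_bot hWne
  exact ⟨v, hWle hv, hv0, fun r => (key r).imp fun μ h => h v hv⟩

/-- If a commutative ring acts on a finite-dimensional space with kernel inside a prime `𝔪`,
there is a common eigenvector whose annihilator is inside `𝔪`. -/
theorem exists_eigenvector_ann_le (ρ : R →+* Module.End K V) (𝔪 : Ideal R) [h𝔪 : 𝔪.IsPrime]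
    (h : RingHom.ker ρ ≤ 𝔪) :
    ∃ v : V, v ≠ 0 ∧ (∀ r, ∃ μ : K, ρ r v = μ • v) ∧ ∀ r, ρ r v = 0 → r ∈ 𝔪 := by
  classical
  obtain ⟨W, hW⟩ := exists_minimal_of_wellFoundedLT
    (fun W : Submodule K V => (∀ r, ∀ x ∈ W, ρ r x ∈ W) ∧
      (∀ r, (∀ x ∈ W, ρ r x = 0) → r ∈ 𝔪))
    ⟨⊤, fun _ _ _ => Submodule.mem_top, fun r hr => h (by
      rw [RingHom.mem_ker]
      ext x
      simpa using hr x Submodule.mem_top)⟩
  obtain ⟨⟨hWst, hWann⟩, hmin⟩ := hW
  have hWne : W ≠ ⊥ := by
    intro hbot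
    apply h𝔪.ne_top
    rw [Ideal.eq_top_iff_one]
    apply hWann
    intro x hx
    rw [hbot, Submodule.mem_bot] at hx
    rw [hx, map_zero]
  obtain ⟨v, hvW, hv0, hev⟩ := exists_common_eigenvector ρ W hWne hWst
  refine ⟨v, hv0, hev, ?_⟩
  intro s hs
  by_contra hsm
  set W' : Submodule K V := W.map (ρ s) with hW'
  have hcomm : ∀ r x, ρ r (ρ s x) = ρ s (ρ r x) := by
    intro r x
    rw [← Module.End.mul_apply, ← Module.End.mul_apply, ← map_mul, ← map_mul, mul_comm]
  have hW'le : W' ≤ W := by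
    rintro _ ⟨x, hx, rfl⟩
    exact hWst s x hx
  have hP : (∀ r, ∀ x ∈ W', ρ r x ∈ W') ∧ (∀ r, (∀ x ∈ W', ρ r x = 0) → r ∈ 𝔪) := by
    constructor
    · rintro r _ ⟨x, hx, rfl⟩
      exact ⟨ρ r x, hWst r x hx, (hcomm r x).symm⟩
    · intro r hr
      have hrs : r * s ∈ 𝔪 := by
        apply hWann
        intro x hx
        rw [map_mul, Module.End.mul_apply]
        exact hr _ ⟨x, hx, rfl⟩
      rcases h𝔪.mem_or_mem hrs with h1 | h1
      · exact h1
      · exact absurd h1 hsm
  have hle : W ≤ W' := hmin hP hW'le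
  -- `ρ s` restricted to `W` is surjective, hence injective
  have hsurj : Function.Surjective ((ρ s).restrict (hWst s)) := by
    rintro ⟨y, hy⟩
    obtain ⟨x, hx, hxy⟩ := hle hy
    exact ⟨⟨x, hx⟩, Subtype.ext hxy⟩
  have hinj : Function.Injective ((ρ s).restrict (hWst s)) :=
    LinearMap.injective_iff_surjective.mpr hsurj
  have hv' : (ρ s).restrict (hWst s) ⟨v, hvW⟩ = 0 := Subtype.ext hs
  have := hinj (hv'.trans (map_zero _).symm)
  exact hv0 (congrArg Subtype.val this)

omit [IsAlgClosed K] [FiniteDimensional K V] in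
/-- The eigencharacter of a common eigenvector. -/
theorem exists_character (ρ : R →+* Module.End K V) (v : V) (hv : v ≠ 0)
    (hev : ∀ r, ∃ μ : K, ρ r v = μ • v) :
    ∃ χ : R →+* K, ∀ r, ρ r v = χ r • v := by
  classical
  choose μ hμ using hev
  have inj := smul_left_injective K hv
  refine ⟨{ toFun := μ, map_one' := ?_, map_mul' := ?_, map_zero' := ?_, map_add' := ?_ }, hμ⟩
  · apply inj
    simp only
    rw [← hμ, map_one, Module.End.one_apply, one_smul]
  · intro r s
    apply inj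
    simp only
    rw [← hμ, map_mul, Module.End.mul_apply, hμ s, map_smul, hμ r, smul_smul, mul_comm]
  · apply inj
    simp only
    rw [← hμ, map_zero, LinearMap.zero_apply, zero_smul]
  · intro r s
    apply inj
    simp only
    rw [← hμ, map_add, LinearMap.add_apply, hμ r, hμ s, add_smul]

end LinAlg

end Fermat.Agent.S49
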