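import Mathlib
import Fermat.Agent.S49.Abstract

set_option autoImplicit false

namespace Fermat.Agent.S49

open Module

/-- Lying over for a character into `ℂ` of a ring integral over `ℤ`. -/
theorem exists_maximal_over {R : Type*} [CommRing R] (χ : R →+* ℂ)
    (hint : ∀ r : R, IsIntegral ℤ (χ r))
    (𝔪 : Ideal R) [h𝔪 : 𝔪.IsMaximal] (hker : RingHom.ker χ ≤ 𝔪) :
    ∃ (χ' : R →+* integralClosure ℤ ℂ) (𝔪' : Ideal (integralClosure ℤ ℂ)),
      (∀ r, ((χ' r : integralClosure ℤ ℂ) : ℂ) = χ r) ∧ 𝔪'.IsMaximal ∧ 𝔪'.comap χ' = 𝔪 := by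
  classical
  let χ' : R →+* integralClosure ℤ ℂ :=
    χ.codRestrict (integralClosure ℤ ℂ) (fun r => hint r)
  have hχ' : ∀ r, ((χ' r : integralClosure ℤ ℂ) : ℂ) = χ r := fun r => rfl
  letI : Algebra R (integralClosure ℤ ℂ) := χ'.toAlgebra
  haveI : IsScalarTower ℤ R (integralClosure ℤ ℂ) := IsScalarTower.of_algebraMap_eq (fun x => by
    simp)
  haveI : Algebra.IsIntegral R (integralClosure ℤ ℂ) := Algebra.IsIntegral.tower_top ℤ
  have hker' : RingHom.ker (algebraMap R (integralClosure ℤ ℂ)) ≤ 𝔪 := by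
    intro r hr
    apply hker
    rw [RingHom.mem_ker] at hr ⊢
    have : χ' r = 0 := hr
    rw [← hχ', this]
    rfl
  obtain ⟨Q, hQ, hQc⟩ := Ideal.exists_ideal_over_maximal_of_isIntegral (S := integralClosure ℤ ℂ) 𝔪 hker'
  exact ⟨χ', Q, hχ', hQ, hQc⟩

/-- A commutative algebra of endomorphisms preserving a finitely generated spanning lattice is
finite over `ℤ`. -/
theorem finite_of_lattice {V : Type*} [AddCommGroup V] [Module ℂ V] (L : Submodule ℤ V)
    (hL : L.FG) (hspan : Submodule.span ℂ (L : Set V) = ⊤)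
    (𝕋 : Subalgebra ℤ (Module.End ℂ V)) (hst : ∀ T ∈ 𝕋, ∀ x ∈ L, T x ∈ L) :
    Module.Finite ℤ 𝕋 := by
  classical
  obtain ⟨s, hs⟩ := hL
  haveI : Module.Finite ℤ L := Module.Finite.iff_fg.mpr ⟨s, hs⟩
  have hsL : ∀ x : s, (x : V) ∈ L := fun x => hs ▸ Submodule.subset_span x.2
  let Φ : 𝕋 →ₗ[ℤ] (s → L) :=
    { toFun := fun T x => ⟨(T : Module.End ℂ V) x, hst T T.2 x (hsL x)⟩
      map_add' := fun T T' => by
        funext x
        apply Subtype.ext
        simp
      map_smul' := fun c T => by
        funext x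
        apply Subtype.ext
        simp }
  have hΦ : Function.Injective Φ := by
    rw [injective_iff_map_eq_zero]
    intro T hT
    apply Subtype.ext
    have h1 : ∀ x ∈ (s : Set V), (T : Module.End ℂ V) x = 0 := by
      intro x hx
      have := congrFun hT ⟨x, hx⟩
      exact congrArg Subtype.val this
    have h2 : ∀ x ∈ L, (T : Module.End ℂ V) x = 0 := by
      intro x hx
      rw [← hs] at hx
      induction hx using Submodule.span_induction with
      | mem x hx => exact h1 x hx
      | zero => exact map_zero _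
      | add x y _ _ hx hy => rw [map_add, hx, hy, add_zero]
      | smul c x _ hx => rw [map_zsmul, hx, smul_zero]
    have h3 : ∀ x ∈ Submodule.span ℂ (L : Set V), (T : Module.End ℂ V) x = 0 := by
      intro x hx
      induction hx using Submodule.span_induction with
      | mem x hx => exact h2 x hx
      | zero => exact map_zero _
      | add x y _ _ hx hy => rw [map_add, hx, hy, add_zero]
      | smul c x _ hx => rw [map_smul, hx, smul_zero]
    ext x
    simpa using h3 x (hspan ▸ Submodule.mem_top)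
  exact Module.Finite.of_injective Φ hΦ

end Fermat.Agent.S49
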