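import Mathlib
import Fermat.Prelude.Def_CuspForm_IntegralLattice
import Fermat.Prelude.Def_FormalHecke_Eigensystem
import Fermat.Prelude.Def_ModularForm_EisensteinChiNegThree

/-!
# Arithmetic lemmas: formal eigensystems are multiplicative, the bridge product mod 3
-/

set_option autoImplicit false

namespace Fermat.Agent.S49

open EisensteinWeightOne

theorem map_e1Chi3In_zmod : PowerSeries.map (Int.castRingHom (ZMod 3)) (e1Chi3In ℤ) = 1 := by
  ext n
  simp only [e1Chi3In, e1Chi3, PowerSeries.coeff_map, PowerSeries.coeff_mk, PowerSeries.coeff_one]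
  split_ifs with h
  · simp
  · have h6 : ((6 : ℤ) : ZMod 3) = 0 := by decide
    simp only [eq_intCast, Int.cast_id, Int.cast_mul, h6, zero_mul]

theorem bridgeProduct_coeff_dvd (a : ℕ → ℤ) (n : ℕ) :
    (3 : ℤ) ∣ (bridgeProduct a).coeff n - a n := by
  have h1 : PowerSeries.map (Int.castRingHom (ZMod 3)) (bridgeProduct a) =
      PowerSeries.map (Int.castRingHom (ZMod 3)) (PowerSeries.mk a) := by
    rw [bridgeProduct, map_mul, map_e1Chi3In_zmod, mul_one]
  have h2 := congrArg (PowerSeries.coeff n) h1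
  simp only [PowerSeries.coeff_map, PowerSeries.coeff_mk, eq_intCast] at h2
  have h3 := (ZMod.intCast_zmod_eq_zero_iff_dvd ((bridgeProduct a).coeff n - a n) 3).mp (by
    push_cast
    rw [h2, sub_self])
  exact_mod_cast h3

theorem chiNegThree_sub_dvd (ℓ : ℕ) : (3 : ℤ) ∣ chiNegThree ℓ - (ℓ : ℤ) := by
  unfold chiNegThree
  split_ifs with h1 h2 <;> omega

section Eigensystem

variable {R : Type*} [CommRing R] {e c : ℕ → R}

theorem eigensystem_prime_pow_mul (h : FormalHecke.IsEigensystem e c) {p : ℕ} (hp : p.Prime)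
    (k m : ℕ) (hm : ¬ p ∣ m) : c (p ^ k * m) = c (p ^ k) * c m := by
  induction k using Nat.twoStepInduction with
  | zero => simp [h.1]
  | one =>
    have := h.2 p hp m
    rw [if_neg hm, mul_zero, add_zero] at this
    simpa using this
  | more k ih0 ih1 =>
    have h1 := h.2 p hp (p ^ (k + 1) * m)
    have h2 := h.2 p hp (p ^ (k + 1))
    have hd1 : p ∣ p ^ (k + 1) * m := Dvd.dvd.mul_right (dvd_pow_self p (Nat.succ_ne_zero k)) m
    have hd2 : p ∣ p ^ (k + 1) := dvd_pow_self p (Nat.succ_ne_zero k)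
    have e1 : p ^ (k + 1) * m / p = p ^ k * m := by
      rw [pow_succ, mul_assoc, mul_comm p m, ← mul_assoc, Nat.mul_div_cancel _ hp.pos]
    have e2 : p ^ (k + 1) / p = p ^ k := by
      rw [pow_succ, Nat.mul_div_cancel _ hp.pos]
    rw [if_pos hd1, e1, ih0, ih1] at h1
    rw [if_pos hd2, e2] at h2
    have e3 : p ^ (k + 2) * m = p * (p ^ (k + 1) * m) := by ring
    have e4 : p ^ (k + 2) = p * p ^ (k + 1) := by ring
    rw [e3, e4]
    linear_combination h1 - c m * h2

theorem eigensystem_mul_coprime (h : FormalHecke.IsEigensystem e c) :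
    ∀ m n : ℕ, m.Coprime n → c (m * n) = c m * c n := by
  intro m
  induction m using Nat.recOnPosPrimePosCoprime with
  | prime_pow p k hp hk =>
    intro n hn
    apply eigensystem_prime_pow_mul h hp
    intro hpn
    have h1 : p ∣ Nat.gcd (p ^ k) n := Nat.dvd_gcd (dvd_pow_self p hk.ne') hpn
    rw [Nat.Coprime] at hn
    rw [hn] at h1
    exact hp.one_lt.ne' (Nat.dvd_one.mp h1)
  | zero =>
    intro n hn
    rw [Nat.coprime_zero_left] at hn
    subst hn
    simp [h.1]
  | one =>
    intro n _
    simp [h.1]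
  | coprime a b _ _ hab iha ihb =>
    intro n hn
    have han : a.Coprime n := Nat.Coprime.coprime_mul_right hn
    have hbn : b.Coprime n := Nat.Coprime.coprime_mul_left hn
    rw [mul_assoc, iha (b * n) (Nat.Coprime.mul_right hab han), ihb n hbn, iha b hab, mul_assoc]

end Eigensystem

/-- A ring homomorphism built from a "congruence relation". -/
theorem exists_ringHom_of_rel {A F : Type*} [CommRing A] [CommRing F] (Rel : A → ℤ → Prop)
    (total : ∀ T, ∃ c, Rel T c)
    (unique : ∀ T c c', Rel T c → Rel T c' → (c : F) = (c' : F))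
    (one : Rel 1 1)
    (add : ∀ T T' c c', Rel T c → Rel T' c' → Rel (T + T') (c + c'))
    (mul : ∀ T T' c c', Rel T c → Rel T' c' → Rel (T * T') (c * c')) :
    ∃ θ : A →+* F, ∀ T c, Rel T c → θ T = (c : F) := by
  classical
  choose μ hμ using total
  refine ⟨{ toFun := fun T => (μ T : F), map_one' := ?_, map_mul' := ?_, map_zero' := ?_,
            map_add' := ?_ }, ?_⟩
  · simpa using unique 1 _ _ (hμ 1) one
  · intro T T'
    simpa using unique (T * T') _ _ (hμ (T * T')) (mul T T' _ _ (hμ T) (hμ T'))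
  · have h0 := unique (0 + 0) _ _ (by simpa using hμ 0) (add 0 0 _ _ (hμ 0) (hμ 0))
    push_cast at h0
    simpa using h0
  · intro T T'
    simpa using unique (T + T') _ _ (hμ (T + T')) (add T T' _ _ (hμ T) (hμ T'))
  · intro T c hc
    exact unique T _ _ (hμ T) hc

end Fermat.Agent.S49
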