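import Mathlib
import Fermat.Agent.S49.Basic
import Fermat.Agent.S49.Arith

/-!
# Eigenvectors of the Hecke operators are (after normalisation) normalised eigenforms
-/

set_option autoImplicit false

namespace Fermat.Agent.S49

open CuspForm ModularFormClass CongruenceSubgroup UpperHalfPlane

variable {N : ℕ} [NeZero N]

/-- The "character" of weight two and level `N`. -/
noncomputable def wtTwoChar (N : ℕ) (p : ℕ) : ℂ := if p ∣ N then 0 else (p : ℂ)

theorem eigen_relation (f : CuspForm (Gamma0 N) 2)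
    (hT : ∀ (p : ℕ) (hp : p.Prime) (hpN : ¬ p ∣ N), ∃ μ : ℂ, heckeTLin 2 hp hpN f = μ • f)
    (hU : ∀ (p : ℕ) (_ : p.Prime) (hpN : p ∣ N), ∃ μ : ℂ, heckeULin 2 hpN f = μ • f)
    (p : ℕ) (hp : p.Prime) :
    ∃ μ : ℂ, ∀ n : ℕ, qCoeff ⇑f (p * n) +
      wtTwoChar N p * (if p ∣ n then qCoeff ⇑f (n / p) else 0) = μ * qCoeff ⇑f n := by
  by_cases hpN : p ∣ N
  · obtain ⟨μ, hμ⟩ := hU p hp hpN
    refine ⟨μ, fun n => ?_⟩
    have h1 := qCoeff_U hp hpN f n
    rw [hμ, qCoeff_smul'] at h1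
    rw [wtTwoChar, if_pos hpN, zero_mul, add_zero, mul_comm p n, ← h1]
  · obtain ⟨μ, hμ⟩ := hT p hp hpN
    refine ⟨μ, fun n => ?_⟩
    have h1 := qCoeff_T hp hpN f n
    rw [hμ, qCoeff_smul'] at h1
    rw [wtTwoChar, if_neg hpN, mul_comm p n, h1]
    split_ifs <;> simp

theorem qCoeff_one_ne_zero_of_eigen (f : CuspForm (Gamma0 N) 2) (hf : f ≠ 0)
    (hT : ∀ (p : ℕ) (hp : p.Prime) (hpN : ¬ p ∣ N), ∃ μ : ℂ, heckeTLin 2 hp hpN f = μ • f)
    (hU : ∀ (p : ℕ) (_ : p.Prime) (hpN : p ∣ N), ∃ μ : ℂ, heckeULin 2 hpN f = μ • f) :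
    qCoeff ⇑f 1 ≠ 0 := by
  intro h1
  apply hf
  apply eq_zero_of_qCoeff
  intro n
  induction n using Nat.strong_induction_on with
  | _ n ih =>
    rcases Nat.lt_or_ge n 2 with hn | hn
    · interval_cases n
      · exact qCoeff_zero_idx f
      · exact h1
    · have hn1 : n ≠ 1 := by omega
      have hp : (n.minFac).Prime := Nat.minFac_prime hn1
      obtain ⟨μ, hμ⟩ := eigen_relation f hT hU n.minFac hp
      have hdvd : n.minFac ∣ n := Nat.minFac_dvd n
      obtain ⟨m, hm⟩ := hdvd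
      have hmlt : m < n := by
        have h2 : 2 ≤ n.minFac := hp.two_le
        have hmpos : 0 < m := by
          rcases Nat.eq_zero_or_pos m with h0 | h0
          · rw [h0, mul_zero] at hm; omega
          · exact h0
        nlinarith
      have h3 := hμ m
      rw [← hm, ih m hmlt, mul_zero] at h3
      have h4 : (if n.minFac ∣ m then qCoeff ⇑f (m / n.minFac) else 0) = 0 := by
        split_ifs with hd
        · exact ih _ (lt_of_le_of_lt (Nat.div_le_self _ _) hmlt)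
        · rfl
      rw [h4, mul_zero, add_zero] at h3
      exact h3

theorem isNormalizedEigenform_of_eigen (f : CuspForm (Gamma0 N) 2) (h1 : qCoeff ⇑f 1 = 1)
    (hT : ∀ (p : ℕ) (hp : p.Prime) (hpN : ¬ p ∣ N), ∃ μ : ℂ, heckeTLin 2 hp hpN f = μ • f)
    (hU : ∀ (p : ℕ) (_ : p.Prime) (hpN : p ∣ N), ∃ μ : ℂ, heckeULin 2 hpN f = μ • f) :
    f.IsNormalizedEigenform := by
  have heig : FormalHecke.IsEigensystem (wtTwoChar N) (fun n => qCoeff ⇑f n) := by
    refine ⟨h1, fun p hp n => ?_⟩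
    obtain ⟨μ, hμ⟩ := eigen_relation f hT hU p hp
    have hμ1 := hμ 1
    rw [if_neg (by simpa using hp.one_lt.ne' : ¬ p ∣ 1), mul_zero, add_zero, mul_one, h1,
      mul_one] at hμ1
    show qCoeff ⇑f (p * n) + wtTwoChar N p * (if p ∣ n then qCoeff ⇑f (n / p) else 0) =
      qCoeff ⇑f p * qCoeff ⇑f n
    rw [hμ1]
    exact hμ n
  have hpow : ∀ p r : ℕ, p.Prime →
      qCoeff ⇑f (p ^ (r + 2)) = qCoeff ⇑f p * qCoeff ⇑f (p ^ (r + 1)) -
        wtTwoChar N p * qCoeff ⇑f (p ^ r) := by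
    intro p r hp
    have h2 := heig.2 p hp (p ^ (r + 1))
    have hd2 : p ∣ p ^ (r + 1) := dvd_pow_self p (Nat.succ_ne_zero r)
    have e2 : p ^ (r + 1) / p = p ^ r := by
      rw [pow_succ, Nat.mul_div_cancel _ hp.pos]
    simp only at h2
    rw [if_pos hd2, e2] at h2
    have e4 : p ^ (r + 2) = p * p ^ (r + 1) := by ring
    rw [e4]
    linear_combination h2
  refine ⟨h1, fun m n hmn => eigensystem_mul_coprime heig m n hmn, ?_, ?_⟩
  · intro p r hp hpN
    rw [hpow p r hp, wtTwoChar, if_neg hpN]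
  · intro p r hp hpN
    rw [hpow p r hp, wtTwoChar, if_pos hpN, zero_mul, sub_zero]

end Fermat.Agent.S49
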