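import Mathlib
import Fermat.Agent.S49.Basic
import Fermat.Agent.S49.Arith
import Fermat.Agent.S49.Abstract2
import Fermat.Agent.S49.Eigen

/-!
# The mod 3 eigencharacter of the Hecke algebra attached to a lattice-realised eigensystem
-/

set_option autoImplicit false

namespace Fermat.Agent.S49

open CuspForm ModularFormClass CongruenceSubgroup UpperHalfPlane EisensteinWeightOne

variable {N : ℕ} [NeZero N]

/-- `T f₀ ≡ c f₀` modulo `3 L`. -/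
def Rel (f₀ : CuspForm (Gamma0 N) 2) (T : Module.End ℂ (CuspForm (Gamma0 N) 2)) (c : ℤ) : Prop :=
  ∃ g ∈ CuspForm.intLattice N 2, T f₀ = (c : ℂ) • f₀ + (3 : ℂ) • g

omit [NeZero N] in
theorem intCast_smul_mem (c : ℤ) {g : CuspForm (Gamma0 N) 2} (hg : g ∈ CuspForm.intLattice N 2) :
    (c : ℂ) • g ∈ CuspForm.intLattice N 2 := by
  have h1 : (c : ℂ) • g = c • g := by
    ext z
    simp
  rw [h1]
  exact Submodule.smul_mem _ c hg

omit [NeZero N] in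
theorem rel_one (f₀ : CuspForm (Gamma0 N) 2) : Rel f₀ 1 1 :=
  ⟨0, Submodule.zero_mem _, by simp⟩

omit [NeZero N] in
theorem rel_add (f₀ : CuspForm (Gamma0 N) 2) {T T' : Module.End ℂ (CuspForm (Gamma0 N) 2)}
    {c c' : ℤ} (h : Rel f₀ T c) (h' : Rel f₀ T' c') : Rel f₀ (T + T') (c + c') := by
  obtain ⟨g, hg, hT⟩ := h
  obtain ⟨g', hg', hT'⟩ := h'
  refine ⟨g + g', Submodule.add_mem _ hg hg', ?_⟩
  rw [LinearMap.add_apply, hT, hT']
  push_cast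
  module

omit [NeZero N] in
theorem rel_algebraMap (f₀ : CuspForm (Gamma0 N) 2) (r : ℤ) :
    Rel f₀ (algebraMap ℤ (Module.End ℂ (CuspForm (Gamma0 N) 2)) r) r := by
  refine ⟨0, Submodule.zero_mem _, ?_⟩
  rw [smul_zero, add_zero]
  have : (algebraMap ℤ (Module.End ℂ (CuspForm (Gamma0 N) 2)) r) = (r : ℂ) • 1 := by
    ext x
    simp
  rw [this]
  simp

theorem rel_mul (f₀ : CuspForm (Gamma0 N) 2) {T T' : Module.End ℂ (CuspForm (Gamma0 N) 2)}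
    (hT𝕋 : T ∈ heckeAlgebra N 2 ∅)
    {c c' : ℤ} (h : Rel f₀ T c) (h' : Rel f₀ T' c') : Rel f₀ (T * T') (c * c') := by
  obtain ⟨g, hg, hT⟩ := h
  obtain ⟨g', hg', hT'⟩ := h'
  refine ⟨(c' : ℂ) • g + T g', Submodule.add_mem _ (intCast_smul_mem c' hg)
    (CuspForm.mem_intLattice_of_mem_heckeAlgebra (by norm_num) hT𝕋 hg'), ?_⟩
  rw [Module.End.mul_apply, hT', map_add, map_smul, map_smul, hT]
  push_cast
  module

omit [NeZero N] in
theorem rel_unique (f₀ : CuspForm (Gamma0 N) 2) (a1 : ℤ) (ha1 : (a1 : ℂ) = qCoeff ⇑f₀ 1)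
    (ha1' : (a1 : ZMod 3) = 1)
    {T : Module.End ℂ (CuspForm (Gamma0 N) 2)} {c c' : ℤ} (h : Rel f₀ T c) (h' : Rel f₀ T c') :
    (c : ZMod 3) = (c' : ZMod 3) := by
  obtain ⟨g, hg, hT⟩ := h
  obtain ⟨g', hg', hT'⟩ := h'
  obtain ⟨m, hm⟩ := (mem_intLattice_iff' g).mp hg 1
  obtain ⟨m', hm'⟩ := (mem_intLattice_iff' g').mp hg' 1
  have h1 := congrArg (qcLin N 1) (hT.symm.trans hT')
  simp only [map_add, map_smul, qcLin_apply, smul_eq_mul, ← ha1, hm, hm'] at h1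
  have h2 : c * a1 + 3 * m = c' * a1 + 3 * m' := by exact_mod_cast h1
  have h3 := congrArg (Int.cast : ℤ → ZMod 3) h2
  have h33 : ((3 : ℤ) : ZMod 3) = 0 := by decide
  push_cast at h3
  have h33' : (3 : ZMod 3) = 0 := by decide
  rw [ha1', h33'] at h3
  simpa using h3

omit [NeZero N] in
theorem exists_three_smul (h : CuspForm (Gamma0 N) 2)
    (hint : ∀ n, ∃ m : ℤ, qCoeff ⇑h n = 3 * (m : ℂ)) :
    ∃ g ∈ CuspForm.intLattice N 2, h = (3 : ℂ) • g := by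
  refine ⟨(3 : ℂ)⁻¹ • h, ?_, ?_⟩
  · rw [mem_intLattice_iff']
    intro n
    obtain ⟨m, hm⟩ := hint n
    refine ⟨m, ?_⟩
    rw [qCoeff_smul', hm]
    field_simp
  · rw [smul_smul]
    norm_num

end Fermat.Agent.S49

namespace Fermat.Agent.S49

open CuspForm ModularFormClass CongruenceSubgroup UpperHalfPlane EisensteinWeightOne

variable {N : ℕ} [NeZero N]

theorem chiNegThree_cast_zmod (ℓ : ℕ) : ((chiNegThree ℓ : ℤ) : ZMod 3) = (ℓ : ZMod 3) := by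
  have h := (ZMod.intCast_zmod_eq_zero_iff_dvd (chiNegThree ℓ - (ℓ : ℤ)) 3).mpr
    (by exact_mod_cast chiNegThree_sub_dvd ℓ)
  push_cast at h
  exact sub_eq_zero.mp h

omit [NeZero N] in
theorem rel_T (f₀ : CuspForm (Gamma0 N) 2) (af a : ℕ → ℤ)
    (haf : ∀ n, (af n : ℂ) = qCoeff ⇑f₀ n)
    (hcong : ∀ n, ((af n : ℤ) : ZMod 3) = ((a n : ℤ) : ZMod 3))
    (heig : FormalHecke.IsEigensystem
      (fun ℓ => if ℓ ∣ N then 0 else ((chiNegThree ℓ : ℤ) : ℤ)) a)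
    {ℓ : ℕ} (hℓ : ℓ.Prime) (hℓN : ¬ ℓ ∣ N) :
    Rel f₀ (heckeTLin 2 hℓ hℓN) (a ℓ) := by
  have hint : ∀ n, ∃ m : ℤ,
      qCoeff ⇑(heckeTLin 2 hℓ hℓN f₀ - (a ℓ : ℂ) • f₀) n = 3 * (m : ℂ) := by
    intro n
    set X : ℤ := af (n * ℓ) + (if ℓ ∣ n then (ℓ : ℤ) * af (n / ℓ) else 0) - a ℓ * af n with hX
    have hX0 : ((X : ℤ) : ZMod 3) = 0 := by
      have h1 := congrArg (Int.cast : ℤ → ZMod 3) (heig.2 ℓ hℓ n)
      simp only [if_neg hℓN] at h1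
      rw [hX]
      by_cases hd : ℓ ∣ n
      · simp only [if_pos hd] at h1 ⊢
        push_cast at h1 ⊢
        rw [chiNegThree_cast_zmod] at h1
        rw [hcong, hcong, hcong, mul_comm n ℓ]
        linear_combination h1
      · simp only [if_neg hd] at h1 ⊢
        push_cast at h1 ⊢
        rw [hcong, hcong, mul_comm n ℓ]
        linear_combination h1
    obtain ⟨m, hm⟩ := (ZMod.intCast_zmod_eq_zero_iff_dvd X 3).mp hX0
    refine ⟨m, ?_⟩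
    have h2 : qCoeff ⇑(heckeTLin 2 hℓ hℓN f₀ - (a ℓ : ℂ) • f₀) n = (X : ℂ) := by
      have h3 : qCoeff ⇑(heckeTLin 2 hℓ hℓN f₀ - (a ℓ : ℂ) • f₀) n =
          qCoeff ⇑(heckeTLin 2 hℓ hℓN f₀) n - (a ℓ : ℂ) * qCoeff ⇑f₀ n := by
        have := (qcLin N n).map_sub (heckeTLin 2 hℓ hℓN f₀) ((a ℓ : ℂ) • f₀)
        simpa using this
      rw [h3, qCoeff_T, hX]
      simp only [← haf]
      split_ifs
      · push_cast; ring
      · push_cast; ring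
    rw [h2, hm]
    push_cast
    ring
  obtain ⟨g, hg, hgeq⟩ := exists_three_smul _ hint
  refine ⟨g, hg, ?_⟩
  rw [← hgeq]
  abel

theorem rel_U (f₀ : CuspForm (Gamma0 N) 2) (af a : ℕ → ℤ)
    (haf : ∀ n, (af n : ℂ) = qCoeff ⇑f₀ n)
    (hcong : ∀ n, ((af n : ℤ) : ZMod 3) = ((a n : ℤ) : ZMod 3))
    (heig : FormalHecke.IsEigensystem
      (fun ℓ => if ℓ ∣ N then 0 else ((chiNegThree ℓ : ℤ) : ℤ)) a)
    {ℓ : ℕ} (hℓ : ℓ.Prime) (hℓN : ℓ ∣ N) :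
    Rel f₀ (heckeULin 2 hℓN) (a ℓ) := by
  have hint : ∀ n, ∃ m : ℤ,
      qCoeff ⇑(heckeULin 2 hℓN f₀ - (a ℓ : ℂ) • f₀) n = 3 * (m : ℂ) := by
    intro n
    set X : ℤ := af (n * ℓ) - a ℓ * af n with hX
    have hX0 : ((X : ℤ) : ZMod 3) = 0 := by
      have h1 := congrArg (Int.cast : ℤ → ZMod 3) (heig.2 ℓ hℓ n)
      simp only [if_pos hℓN, zero_mul, add_zero] at h1
      rw [hX]
      push_cast at h1 ⊢
      rw [hcong, hcong, mul_comm n ℓ]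
      linear_combination h1
    obtain ⟨m, hm⟩ := (ZMod.intCast_zmod_eq_zero_iff_dvd X 3).mp hX0
    refine ⟨m, ?_⟩
    have h2 : qCoeff ⇑(heckeULin 2 hℓN f₀ - (a ℓ : ℂ) • f₀) n = (X : ℂ) := by
      have h3 : qCoeff ⇑(heckeULin 2 hℓN f₀ - (a ℓ : ℂ) • f₀) n =
          qCoeff ⇑(heckeULin 2 hℓN f₀) n - (a ℓ : ℂ) * qCoeff ⇑f₀ n := by
        have := (qcLin N n).map_sub (heckeULin 2 hℓN f₀) ((a ℓ : ℂ) • f₀)
        simpa using this
      rw [h3, qCoeff_U hℓ, hX]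
      simp only [← haf]
      push_cast; ring
    rw [h2, hm]
    push_cast
    ring
  obtain ⟨g, hg, hgeq⟩ := exists_three_smul _ hint
  refine ⟨g, hg, ?_⟩
  rw [← hgeq]
  abel

/-- Every element of the Hecke algebra acts on `f₀` as an integer modulo `3 L`. -/
theorem rel_total (f₀ : CuspForm (Gamma0 N) 2) (af a : ℕ → ℤ)
    (haf : ∀ n, (af n : ℂ) = qCoeff ⇑f₀ n)
    (hcong : ∀ n, ((af n : ℤ) : ZMod 3) = ((a n : ℤ) : ZMod 3))
    (heig : FormalHecke.IsEigensystem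
      (fun ℓ => if ℓ ∣ N then 0 else ((chiNegThree ℓ : ℤ) : ℤ)) a)
    {T : Module.End ℂ (CuspForm (Gamma0 N) 2)} (hT : T ∈ heckeAlgebra N 2 ∅) :
    ∃ c : ℤ, Rel f₀ T c := by
  unfold heckeAlgebra at hT
  induction hT using Algebra.adjoin_induction with
  | mem x hx =>
    rcases hx with ⟨ℓ, hℓ, hℓN, -, rfl⟩ | ⟨q, hqN, hq, -, rfl⟩
    · exact ⟨a ℓ, rel_T f₀ af a haf hcong heig hℓ hℓN⟩
    · exact ⟨a q, rel_U f₀ af a haf hcong heig hq hqN⟩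
  | algebraMap r => exact ⟨r, rel_algebraMap f₀ r⟩
  | add x y _ _ hx hy =>
    obtain ⟨c, hc⟩ := hx
    obtain ⟨c', hc'⟩ := hy
    exact ⟨c + c', rel_add f₀ hc hc'⟩
  | mul x y hx' _ hx hy =>
    obtain ⟨c, hc⟩ := hx
    obtain ⟨c', hc'⟩ := hy
    exact ⟨c * c', rel_mul f₀ hx' hc hc'⟩

end Fermat.Agent.S49
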